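import Fermat.Agent.CFT.GW10

/-!
# The reciprocity law for two global classes, one of which is trivial at all places of `S` but one
-/

set_option autoImplicit false
set_option linter.unusedSectionVars false
set_option linter.unusedVariables false
set_option linter.style.haveILetI false

noncomputable section

namespace Fermat.Agent.S14x

open Module Fermat.Agent.Sel Fermat.Agent.CFT
open scoped Pointwise

variable {p : ℕ} [hp : Fact p.Prime] {V V' : Type} [AddCommGroup V] [Module (ZMod p) V]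
  [AddCommGroup V'] [Module (ZMod p) V'] {S : Finset ℕ}
  {r : GQ →* Module.End (ZMod p) V} {r' : GQ →* Module.End (ZMod p) V'}
  {B : V →ₗ[ZMod p] V' →ₗ[ZMod p] ZMod p}

variable (hD : DualReps p S r r' B)

theorem null_glob {F : (CG S r).X 1} (hF : (CG S r).d 1 F = 0) {G : (CG S r').X 1}
    (hG : (CG S r').d 1 G = 0) :
    Null3 (loc (Sg := SG S) (Sl := SL) SG_SL (idG GQ) (XS S) (χQ p))
      (cup1 B (DualReps.eqχ hD) ((LC S r).f 1 F) ((LC S r').f 1 G)) := by
  refine ⟨cup1 B (DualReps.eqχ hD) F G, cup1_d B (DualReps.eqχ hD) hF hG, 0, ?_⟩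
  rw [map_zero, sub_zero]
  apply cv_injective
  apply funext3
  intro a x y z
  rfl

variable [FiniteDimensional (ZMod p) V] [FiniteDimensional (ZMod p) V']
  (hp2 : p ≠ 2) (A : S → ValuationSubring Qb)
  (hA : ∀ v, (A v).LiesOverPrime (v : ℕ))

include hD hp2 hA in
/-- **Reciprocity.** -/
theorem recip {c : GQ → V} {c' : GQ → V'}
    (hc : ∀ σ τ : GQ, c (σ * τ) = c σ + r σ (c τ))
    (hlc : ∃ F : IntermediateField ℚ Qb, FiniteDimensional ℚ F ∧
      ∀ σ : GQ, (∀ x ∈ F, σ x = x) → c σ = 0)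
    (hun : ∀ A : Pl, A.ell ∉ S → ∀ σ ∈ Ine A, c σ = 0)
    (hc' : ∀ σ τ : GQ, c' (σ * τ) = c' σ + r' σ (c' τ))
    (hlc' : ∃ F : IntermediateField ℚ Qb, FiniteDimensional ℚ F ∧
      ∀ σ : GQ, (∀ x ∈ F, σ x = x) → c' σ = 0)
    (hun' : ∀ A : Pl, A.ell ∉ S → ∀ σ ∈ Ine A, c' σ = 0) (v : S)
    (h : ∀ w : S, w ≠ v → (fun σ : (A w).decompositionSubgroup ℚ => c σ) ∈ B1 r _) :
    Cup0 r' B (GalRep.cyc p) ((A v).decompositionSubgroup ℚ) (fun σ => c σ) (fun σ => c' σ) := by
  obtain ⟨F, hF⟩ := exists_evG (r : Representation _ GQ V) (DualReps.lev hD) hc hlc hun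
  obtain ⟨G, hG⟩ := exists_evG (r' : Representation _ GQ V') (DualReps.lev' hD) hc' hlc' hun'
  set Fz1 := locZ (r : Representation _ GQ V) S F with hFL
  set Gz := locZ (r' : Representation _ GQ V') S G with hGL
  set c0 : Z1 (r : Representation _ GQ V) (DD (aA A hA hD.prime) v) :=
    evL (r : Representation _ GQ V) (aA A hA hD.prime) v Fz1 with hc0
  obtain ⟨F0, hF0, hs⟩ := exists_at (a := aA A hA hD.prime) (r : Representation _ GQ V) v c0
  have e1 : (evL (r : Representation _ GQ V) (aA A hA hD.prime) v Fz1 :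
      (A v).decompositionSubgroup ℚ → V) = fun σ : (A v).decompositionSubgroup ℚ => c (σ : GQ) := by
    rw [hFL, evL_locZ, hF]
  have e2 : (evL (r' : Representation _ GQ V') (aA A hA hD.prime) v Gz :
      (A v).decompositionSubgroup ℚ → V') = fun σ : (A v).decompositionSubgroup ℚ => c' (σ : GQ) := by
    rw [hGL, evL_locZ, hG]
  have hdiff : ((Fz1 - F0 : (CP S r).Z 1) : (CP S r).X 1) ∈ (CP S r).B 1 := by
    refine (evL_mem_B1_iff (r : Representation _ GQ V) (places_aA A hA hD.prime) _).2 fun w => ?_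
    rw [map_sub]
    by_cases hw : w = v
    · subst hw
      rw [hF0, hc0, sub_self]
      exact Submodule.zero_mem _
    · rw [evL_supp_ne (r : Representation _ GQ V) (places_aA A hA hD.prime) (Ne.symm hw) hs,
        sub_zero, hFL, evL_locZ, hF]
      exact h w hw
  have hn : Null3 (loc (Sg := SG S) (Sl := SL) SG_SL (idG GQ) (XS S) (χQ p))
      (cup1 B (DualReps.eqχ hD) F0.1 Gz.1) := by
    obtain ⟨l, hl⟩ := cup1_left_B B (DualReps.eqχ hD) hdiff Gz.2
    have h1 : Null3 (loc (Sg := SG S) (Sl := SL) SG_SL (idG GQ) (XS S) (χQ p))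
      (cup1 B (DualReps.eqχ hD) Fz1.1 Gz.1) := null_glob hD F.2 G.2
    have h2 := Null3.of_B (loc (Sg := SG S) (Sl := SL) SG_SL (idG GQ) (XS S) (χQ p)) hl
    have h3 : cup1 B (DualReps.eqχ hD) F0.1 Gz.1 = cup1 B (DualReps.eqχ hD) Fz1.1 Gz.1 +
        -(cup1 B (DualReps.eqχ hD) ((Fz1 - F0 : (CP S r).Z 1) : (CP S r).X 1) Gz.1) := by
      have h4 : (Fz1.1 : (CP S r).X 1) = F0.1 + ((Fz1 - F0 : (CP S r).Z 1) : (CP S r).X 1) := by
        change (Fz1.1 : (CP S r).X 1) = F0.1 + (Fz1.1 - F0.1)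
        rw [add_sub_cancel]
      have h5 := cup1_add_left B (DualReps.eqχ hD) F0.1
        ((Fz1 - F0 : (CP S r).Z 1) : (CP S r).X 1) Gz.1
      rw [← h4] at h5
      rw [h5]
      abel
    rw [h3]
    exact h1.add h2.neg
  have key := cup0_of_null hp2 hD A hA v c0 hF0 hs Gz.2 hn
  have e3 : (c0 : (A v).decompositionSubgroup ℚ → V) = fun σ : (A v).decompositionSubgroup ℚ => c (σ : GQ) := e1
  have e4 : (evL (r' : Representation _ GQ V') (aA A hA hD.prime) v ⟨Gz.1, Gz.2⟩ :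
    (A v).decompositionSubgroup ℚ → V') = fun σ : (A v).decompositionSubgroup ℚ => c' (σ : GQ) := e2
  rw [← e3, ← e4]
  exact key

end Fermat.Agent.S14x
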