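import Fermat.Agent.S14x.Coc
import Fermat.Agent.S14x.Rec
import Fermat.Prelude.Def_ExtCitation_AdmissibleExtension_v2

/-!
# Vanishing of the group of extensions of `μ_p` by `ℤ/p`
-/

set_option autoImplicit false
set_option linter.unusedSectionVars false
set_option linter.style.haveILetI false

noncomputable section

namespace Fermat.Agent.S14x

open Fermat.Agent.Places Fermat.Agent.FlatRam Fermat.Agent.Flat
  Fermat.Agent.GalRep Fermat.Agent.Sel Fermat.Agent.CFT Module

variable {p : ℕ} [hp : Fact p.Prime]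

/-- a character as a representation -/
def chr (χ : CFT.GQ →* ZMod p) : CFT.GQ →* Module.End (ZMod p) (ZMod p) :=
  (Algebra.lmul (ZMod p) (ZMod p) : ZMod p →* Module.End (ZMod p) (ZMod p)).comp χ

theorem chr_apply (χ : CFT.GQ →* ZMod p) (σ : CFT.GQ) (x : ZMod p) : chr χ σ x = χ σ * x := rfl

/-- the inverse of the cyclotomic character -/
def ci (p : ℕ) [Fact p.Prime] : CFT.GQ →* ZMod p where
  toFun σ := (cyc p σ)⁻¹
  map_one' := by rw [map_one, inv_one]
  map_mul' σ τ := by rw [map_mul, mul_inv]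

/-- the square of the cyclotomic character -/
def c2 (p : ℕ) [Fact p.Prime] : CFT.GQ →* ZMod p where
  toFun σ := cyc p σ ^ 2
  map_one' := by rw [map_one, one_pow]
  map_mul' σ τ := by rw [map_mul, mul_pow]

/-- the standing hypotheses -/
theorem dualReps {v : ℕ} (hv : v.Prime) : DualReps p {p, v} (chr (ci p)) (chr (c2 p))
    (LinearMap.mul (ZMod p) (ZMod p)) where
  prime := by
    intro w hw
    rcases Finset.mem_insert.1 hw with rfl | h
    · exact hp.out
    · rw [Finset.mem_singleton.1 h]; exact hv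
  mem := Finset.mem_insert_self _ _
  lc := by
    obtain ⟨L, hL, h⟩ := exists_level_cyc p
    refine ⟨L, hL, fun σ hσ => ?_⟩
    have h1 := h σ hσ
    constructor
    · refine LinearMap.ext fun x => ?_
      rw [chr_apply]
      change (cyc p σ)⁻¹ * x = x
      rw [h1, inv_one, one_mul]
    · refine LinearMap.ext fun x => ?_
      rw [chr_apply]
      change (cyc p σ) ^ 2 * x = x
      rw [h1, one_pow, one_mul]
  unr := by
    intro l hl hlS A hA σ hσ
    have hlp : l ≠ p := fun h => hlS (by rw [h]; exact Finset.mem_insert_self _ _)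
    have h1 : cyc p σ = 1 := cyc_inertia ((Nat.coprime_primes hl hp.out).2 hlp) hA hσ
    constructor
    · refine LinearMap.ext fun x => ?_
      rw [chr_apply]
      change (cyc p σ)⁻¹ * x = x
      rw [h1, inv_one, one_mul]
    · refine LinearMap.ext fun x => ?_
      rw [chr_apply]
      change (cyc p σ) ^ 2 * x = x
      rw [h1, one_pow, one_mul]
  nd := fun x h => by
    have := h 1
    rwa [LinearMap.mul_apply', mul_one] at this
  nd' := fun x h => by
    have := h 1
    rwa [LinearMap.mul_apply', one_mul] at this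
  eq := fun σ x y => by
    rw [chr_apply, chr_apply, LinearMap.mul_apply', LinearMap.mul_apply']
    change (cyc p σ)⁻¹ * x * (cyc p σ ^ 2 * y) = _
    have := cyc_ne_zero (p := p) σ
    field_simp

/-- **Herbrand's theorem for `ω⁻¹`**: a cocycle with values in `𝔽_p(-1)`, unramified outside `p`
and trivial at `p` is a coboundary. -/
theorem coboundary (hp2 : p ≠ 2) {c : CFT.GQ → ZMod p}
    (hc : ∀ σ τ : CFT.GQ, c (σ * τ) = c σ + (cyc p σ)⁻¹ * c τ)
    (hlc : ∃ F : IntermediateField ℚ Qb, FiniteDimensional ℚ F ∧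
      ∀ σ : CFT.GQ, (∀ x ∈ F, σ x = x) → c σ = 0)
    (hun : ∀ q : ℕ, q.Prime → q ≠ p → ∀ A : ValuationSubring Qb, A.LiesOverPrime q →
      ∀ σ ∈ A.inertiaSubgroupIn ℚ, c σ = 0)
    (hloc : ∀ A : ValuationSubring Qb, A.LiesOverPrime p →
      ∃ ξ : ZMod p, ∀ σ ∈ A.decompositionSubgroup ℚ, c σ = (cyc p σ)⁻¹ * ξ - ξ) :
    ∃ ξ : ZMod p, ∀ σ : CFT.GQ, c σ = (cyc p σ)⁻¹ * ξ - ξ := by
  have hc1 : c 1 = 0 := by
    have := hc 1 1
    rw [mul_one, map_one, inv_one, one_mul] at this
    simpa using this
  -- vanishing on the kernel of the cyclotomic character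
  have key : ∀ σ : CFT.GQ, cyc p σ = 1 → c σ = 0 := by
    intro σ hσ
    by_contra hne
    obtain ⟨F, hF, hcF⟩ := hlc
    obtain ⟨L, hL, hcL⟩ := exists_level_cyc p
    haveI := hF
    haveI := hL
    obtain ⟨v, hv, hvp, A, hA, Φ, hΦ, n, m, h1, h2⟩ := Cheb.exists_isFrobeniusAt_pow_mem (L := Qb)
      ({p} : Set ℕ) (Set.finite_singleton p) (F ⊔ L).fixingSubgroup
      (IntermediateField.fixingSubgroup_isOpen _) σ
    haveI : Fact v.Prime := ⟨hv⟩
    have hvp' : v ≠ p := hvp
    have hU : ∀ u ∈ (F ⊔ L).fixingSubgroup, c u = 0 ∧ cyc p u = 1 := by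
      intro u hu
      rw [IntermediateField.mem_fixingSubgroup_iff] at hu
      exact ⟨hcF u fun x hx => hu x ((le_sup_left : F ≤ F ⊔ L) hx),
        hcL u fun x hx => hu x ((le_sup_right : L ≤ F ⊔ L) hx)⟩
    have hcyc : cyc p Φ = 1 := by
      have e1 : cyc p (Φ⁻¹ * σ ^ m) = 1 := (hU _ h2).2
      have e2 : cyc p (σ ^ m) = cyc p Φ * cyc p (Φ⁻¹ * σ ^ m) := by
        rw [← map_mul, mul_inv_cancel_left]
      rw [e1, mul_one, map_pow, hσ, one_pow] at e2
      exact e2.symm
    have hcpow : ∀ k : ℕ, c (Φ ^ k) = k * c Φ := by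
      intro k
      induction k with
      | zero => rw [pow_zero, hc1, Nat.cast_zero, zero_mul]
      | succ k ih =>
        rw [pow_succ', hc, ih, hcyc, inv_one]
        push_cast
        ring
    have hcΦ : c Φ ≠ 0 := by
      intro h
      have e1 := hU _ h1
      have e2 : c (Φ ^ n) = c σ := by
        have : Φ ^ n = σ * (σ⁻¹ * Φ ^ n) := by rw [mul_inv_cancel_left]
        rw [this, hc, e1.1, mul_zero, add_zero]
      rw [hcpow, h, mul_zero] at e2
      exact hne e2.symm
    have hv1 : (v : ZMod p) = 1 := by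
      rw [← cyc_frobenius ((Nat.coprime_primes hv hp.out).2 hvp') hA hΦ]
      exact hcyc
    obtain ⟨b, hb, hbl, hbun, τ, hτ, hbτ⟩ := exists_cocycle hA (Ne.symm hvp') hp2 hv1
    -- the places
    obtain ⟨Ap, hAp⟩ := CFT.exists_place p hp.out
    have hAp' : Ap.v.LiesOverPrime p := by
      have := Ap.liesOver_ell
      rwa [hAp] at this
    let S : Finset ℕ := {p, v}
    have hvS : v ∈ S := Finset.mem_insert_of_mem (Finset.mem_singleton_self v)
    let AA : S → ValuationSubring Qb := fun w => if (w : ℕ) = v then A else Ap.v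
    have hAA : ∀ w, (AA w).LiesOverPrime (w : ℕ) := by
      intro w
      rcases Finset.mem_insert.1 w.2 with h | h
      · have : (w : ℕ) ≠ v := by rw [h]; exact Ne.symm hvp'
        simp only [AA, if_neg this, h]
        exact hAp'
      · have h' := Finset.mem_singleton.1 h
        simp only [AA, if_pos h', h']
        exact hA
    have hAv : AA ⟨v, hvS⟩ = A := if_pos rfl
    have hcup := recip (dualReps (p := p) hv) hp2 AA hAA (c := c) (c' := b)
      (fun σ τ => hc σ τ) ⟨F, hF, hcF⟩
      (fun B hB σ hσ => hun B.ell B.ell_prime (fun h => hB (by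
        rw [h]; exact Finset.mem_insert_self _ _)) B.v B.liesOver_ell σ hσ)
      (fun σ τ => hb σ τ) hbl
      (fun B hB σ hσ => hbun B.ell B.ell_prime (fun h => hB (by
        rw [h]; exact Finset.mem_insert_self _ _)) (fun h => hB (by rw [h]; exact hvS))
        B.v B.liesOver_ell σ hσ) ⟨v, hvS⟩ (fun w hw => by
        have hwv : (w : ℕ) ≠ v := fun h => hw (Subtype.ext h)
        have hwA : AA w = Ap.v := if_neg hwv
        rw [hwA]
        obtain ⟨ξ, hξ⟩ := hloc Ap.v hAp'
        refine ⟨ξ, funext fun σ => ?_⟩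
        rw [hξ σ σ.2]
        rfl)
    rw [hAv] at hcup
    obtain ⟨f, hf, hcf⟩ := hcup
    have hcycD : ∀ σ : A.decompositionSubgroup ℚ, cyc p (σ : CFT.GQ) = 1 := fun σ =>
      cyc_dec hA (Ne.symm hvp') hv1 σ.2
    have hres := heis_zero (p := p) (v := v) hA (Ne.symm hvp') hv1
      (c := fun σ : A.decompositionSubgroup ℚ => c σ) (c' := fun σ => b σ) (f := f)
      (fun σ τ => by
        change c ((σ : CFT.GQ) * τ) = _
        rw [hc, hcycD, inv_one, one_mul])
      (fun σ τ => by
        change b ((σ : CFT.GQ) * τ) = _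
        rw [hb, hcycD, one_pow, one_mul])
      ⟨F, hF, fun σ hσ => hcF σ hσ⟩ (by
        obtain ⟨F', hF', h'⟩ := hbl
        exact ⟨F', hF', fun σ hσ => h' σ hσ⟩) hf
      (fun σ τ => by
        have e1 := hcf σ τ
        rw [hcycD, one_mul, chr_apply] at e1
        have e2 : c2 p (σ : CFT.GQ) = 1 := by
          change cyc p (σ : CFT.GQ) ^ 2 = 1
          rw [hcycD, one_pow]
        rw [e2, one_mul] at e1
        exact e1)
      (fun σ hσ => hun v hv hvp' A hA σ hσ)
      (Φ := ⟨Φ, hΦ.mem_decompositionSubgroup⟩) (τ := ⟨τ, mem_dec hτ⟩)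
      (isFr_of_isFrobeniusAt hΦ) hτ
    rcases mul_eq_zero.1 hres with h | h
    · exact hcΦ h
    · exact hbτ h
  -- the cocycle is a coboundary
  have h2 : (2 : ZMod p) ≠ 0 := by
    intro h
    have : p ∣ 2 := by
      rw [← ZMod.natCast_eq_zero_iff]; exact_mod_cast h
    exact hp2 ((Nat.prime_dvd_prime_iff_eq hp.out Nat.prime_two).1 this)
  have hcc : cyc p complexConjugation = -1 := cyc_complexConjugation p
  refine ⟨-(c complexConjugation / 2), fun σ => ?_⟩
  have e1 : c (σ * complexConjugation) = c (complexConjugation * σ) := by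
    have e2 : σ * complexConjugation =
        (σ * complexConjugation * (complexConjugation * σ)⁻¹) * (complexConjugation * σ) := by
      rw [inv_mul_cancel_right]
    have e3 : cyc p (σ * complexConjugation * (complexConjugation * σ)⁻¹) = 1 := by
      have e4 : cyc p (σ * complexConjugation * (complexConjugation * σ)⁻¹) *
          cyc p (complexConjugation * σ) = cyc p (σ * complexConjugation) := by
        rw [← map_mul, inv_mul_cancel_right]
      have e5 : cyc p (σ * complexConjugation) = cyc p (complexConjugation * σ) := by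
        rw [map_mul, map_mul, mul_comm]
      rw [e5] at e4
      exact (mul_eq_right₀ (cyc_ne_zero _)).1 e4
    rw [e2, hc _ (complexConjugation * σ), e3, key _ e3, zero_add, inv_one, one_mul]
  rw [hc, hc, hcc] at e1
  have e2 : (-1 : ZMod p)⁻¹ = -1 := by norm_num
  rw [e2] at e1
  field_simp
  linear_combination e1

end Fermat.Agent.S14x
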