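import Fermat.Agent.S14x.Jac2

/-!
# The Kummer cocycle of the Jacobi sums
-/

set_option autoImplicit false
set_option linter.unusedSectionVars false
set_option linter.style.haveILetI false

noncomputable section

namespace Fermat.Agent.S14x

open Fermat.Agent.Places Fermat.Agent.RedMod Fermat.Agent.FlatRam Fermat.Agent.Flat
  Fermat.Agent.GalRep Fermat.Agent.TW Fermat.Agent.Sel

local notation "Ω" => AlgebraicClosure ℚ

variable {p : ℕ} [hp : Fact p.Prime] {A : ValuationSubring (AlgebraicClosure ℚ)} {v : ℕ}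
  [hv : Fact v.Prime]

theorem cyc_ne_zero (σ : GQ) : cyc p σ ≠ 0 := ((Group.isUnit σ).map (cyc p)).ne_zero

/-- half sums -/
theorem half_sum (hp2 : p ≠ 2) : (∑ t : ZMod p, if 2 * t.val < p then t else 0) ≠ 0 := by
  have h1 : (∑ t : ZMod p, if 2 * t.val < p then t else 0) =
      ((∑ i ∈ Finset.range ((p + 1) / 2), i : ℕ) : ZMod p) := by
    rw [Nat.cast_sum, ← Finset.sum_filter]
    symm
    refine Finset.sum_bij' (fun i _ => (i : ZMod p)) (fun t _ => t.val) ?_ ?_ ?_ ?_ ?_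
    · intro i hi
      rw [Finset.mem_range] at hi
      rw [Finset.mem_filter]
      refine ⟨Finset.mem_univ _, ?_⟩
      rw [ZMod.val_natCast_of_lt (by omega)]
      have := hp.out.two_le
      have h2 := hp.out.eq_two_or_odd
      omega
    · intro t ht
      rw [Finset.mem_filter] at ht
      rw [Finset.mem_range]
      omega
    · intro i hi
      rw [Finset.mem_range] at hi
      exact ZMod.val_natCast_of_lt (by omega)
    · intro t _
      exact ZMod.natCast_zmod_val t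
    · intro i _
      rfl
  rw [h1]
  intro h
  have h2 : p % 2 = 1 := by
    have h2 := hp.out.eq_two_or_odd
    omega
  obtain ⟨k, hk⟩ : ∃ k, p = 2 * k + 1 := ⟨p / 2, by omega⟩
  have h3 : (p + 1) / 2 = k + 1 := by omega
  rw [h3] at h
  have h4 := Finset.sum_range_id_mul_two (k + 1)
  rw [Nat.add_sub_cancel] at h4
  have h5 : ((4 * ((∑ i ∈ Finset.range (k + 1), i) * 2) : ℕ) : ZMod p) = 0 := by
    rw [Nat.cast_mul, Nat.cast_mul, h, zero_mul, mul_zero]
  rw [h4] at h5
  have h6 : ((4 * ((k + 1) * k) : ℕ) : ZMod p) = (p : ZMod p) * (2 * k + 1) - 1 := by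
    have : ((p : ℕ) : ZMod p) = 2 * k + 1 := by
      have := congrArg (Nat.cast : ℕ → ZMod p) hk
      push_cast at this
      exact this
    rw [this]
    push_cast
    ring
  rw [h6, ZMod.natCast_self, zero_mul, zero_sub, neg_eq_zero] at h5
  exact one_ne_zero h5

theorem mem_of_pow_mem {B : ValuationSubring (AlgebraicClosure ℚ)} {x : Ω} {n : ℕ} (hn : n ≠ 0)
    (hx : x ^ n ∈ B) : x ∈ B := by
  rw [← B.valuation_le_one_iff] at hx ⊢
  rw [map_pow] at hx
  by_contra h
  push Not at h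
  exact absurd hx (not_le.2 (one_lt_pow₀ h hn))

/-- **The Kummer cocycle.** -/
theorem exists_cocycle (hA : A.LiesOverPrime v) (hpv : p ≠ v) (hp2 : p ≠ 2)
    (hv1 : (v : ZMod p) = 1) :
    ∃ b : GQ → ZMod p, (∀ σ τ, b (σ * τ) = b σ + cyc p σ ^ 2 * b τ) ∧
      (∃ F : IntermediateField ℚ Ω, FiniteDimensional ℚ F ∧
        ∀ σ : GQ, (∀ x ∈ F, σ x = x) → b σ = 0) ∧
      (∀ q : ℕ, q.Prime → q ≠ p → q ≠ v → ∀ B : ValuationSubring Ω, B.LiesOverPrime q →
        ∀ σ ∈ B.inertiaSubgroupIn ℚ, b σ = 0) ∧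
      ∃ τ ∈ A.inertiaSubgroupIn ℚ, b τ ≠ 0 := by
  classical
  obtain ⟨χ, h1, h2, h3, h4, hdvd⟩ := exists_char hA hpv hv1
  have hv0 : (v : Ω) ≠ 0 := Nat.cast_ne_zero.2 hv.out.ne_zero
  have hne : ∀ {s : ZMod p}, s ≠ 0 → JJ χ s ≠ 0 := by
    intro s hs h
    have := JJ_mul h1 h2 hp2 hs
    rw [h, zero_mul] at this
    exact hv0 this.symm
  let J : ZMod p → Ω := fun t => if t = 0 then 1 else JJ χ t
  have hJ0 : ∀ t, J t ≠ 0 := by
    intro t
    by_cases ht : t = 0
    · simp [J, ht]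
    · simp only [J, if_neg ht]
      exact hne ht
  have hJσ : ∀ (σ : GQ) t, σ (J t) = J (cyc p σ * t) := by
    intro σ t
    by_cases ht : t = 0
    · simp [J, ht]
    · simp only [J, if_neg ht, if_neg (mul_ne_zero (cyc_ne_zero σ) ht)]
      exact apply_JJ h1 h3 σ t
  choose y hy using fun t => IsAlgClosed.exists_pow_nat_eq (J t) hp.out.pos
  have hy0 : ∀ t, y t ≠ 0 := by
    intro t h
    have := hy t
    rw [h, zero_pow hp.out.ne_zero] at this
    exact hJ0 t this.symm
  have hex : ∀ (σ : GQ) t, ∃ c : ZMod p, σ (y t) = zp c * y (cyc p σ * t) := by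
    intro σ t
    obtain ⟨c, hc⟩ := exists_zp (p := p) (x := σ (y t) / y (cyc p σ * t)) (by
      rw [div_pow, ← map_pow, hy, hy, hJσ, div_self (hJ0 _)])
    exact ⟨c, by rw [← hc, div_mul_cancel₀ _ (hy0 _)]⟩
  choose aa haa using hex
  have haamul : ∀ (σ τ : GQ) t, aa (σ * τ) t = cyc p σ * aa τ t + aa σ (cyc p τ * t) := by
    intro σ τ t
    apply zp_inj
    have e1 : (σ * τ) (y t) = σ (τ (y t)) := rfl
    rw [haa, haa τ t, map_mul σ, apply_zp, haa σ, map_mul (cyc p), ← mul_assoc, mul_assoc (cyc p σ)] at e1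
    rw [zp_add]
    exact mul_right_cancel₀ (hy0 _) e1
  refine ⟨fun σ => ∑ t, cyc p σ * t * aa σ t, ?_, ?_, ?_, ?_⟩
  · intro σ τ
    have e1 : ∀ t, cyc p (σ * τ) * t * aa (σ * τ) t =
        cyc p σ * (cyc p τ * t) * aa σ (cyc p τ * t) +
        cyc p σ ^ 2 * (cyc p τ * t * aa τ t) := by
      intro t
      rw [haamul, map_mul]
      ring
    beta_reduce
    rw [Finset.sum_congr rfl fun t _ => e1 t, Finset.sum_add_distrib, ← Finset.mul_sum]
    congr 1
    exact Fintype.sum_equiv (Equiv.mulLeft₀ (cyc p τ) (cyc_ne_zero τ)) _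
      (fun t => cyc p σ * t * aa σ t) fun t => rfl
  · obtain ⟨L, hL, hL1⟩ := exists_level_cyc p
    let S : Finset Ω := Finset.univ.image y
    haveI := hL
    haveI : FiniteDimensional ℚ (IntermediateField.adjoin ℚ (S : Set Ω)) :=
      IntermediateField.finiteDimensional_adjoin fun x _ =>
        (Algebra.IsAlgebraic.isAlgebraic (R := ℚ) x).isIntegral
    refine ⟨L ⊔ IntermediateField.adjoin ℚ (S : Set Ω), inferInstance, fun σ hσ => ?_⟩
    have hc : cyc p σ = 1 := hL1 σ fun x hx => hσ x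
      ((le_sup_left : L ≤ L ⊔ IntermediateField.adjoin ℚ (S : Set Ω)) hx)
    have ha : ∀ t, aa σ t = 0 := by
      intro t
      have e1 := haa σ t
      rw [hc, one_mul, hσ (y t) ((le_sup_right : _ ≤ L ⊔ IntermediateField.adjoin ℚ (S : Set Ω))
        (IntermediateField.subset_adjoin ℚ _ (by
          rw [Finset.mem_coe, Finset.mem_image]
          exact ⟨t, Finset.mem_univ _, rfl⟩)))] at e1
      apply zp_inj
      rw [zp_zero]
      exact (mul_eq_right₀ (hy0 t)).1 e1.symm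
    exact Finset.sum_eq_zero fun t _ => by rw [ha, mul_zero]
  · intro q hq hqp hqv B hB σ hσ
    have hcop : Nat.Coprime q p := (Nat.coprime_primes hq hp.out).2 hqp
    have hc : cyc p σ = 1 := cyc_inertia hcop hB hσ
    refine Finset.sum_eq_zero fun t _ => ?_
    by_cases ht : t = 0
    · rw [ht, mul_zero, zero_mul]
    have hJt : J t = JJ χ t := if_neg ht
    have hvi : (v : Ω)⁻¹ ∈ B := by
      refine inv_mem_of_unit (fun h => ?_)
      -- `v` and `q` are coprime
      have hcop2 : Nat.Coprime q v := (Nat.coprime_primes hq hv.out).2 hqv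
      have hbez := Nat.gcd_eq_gcd_ab q v
      rw [hcop2.gcd_eq_one] at hbez
      have e1 : (1 : Ω) = q * (Nat.gcdA q v : Ω) + v * (Nat.gcdB q v : Ω) := by
        exact_mod_cast congrArg (Int.cast : ℤ → Ω) hbez
      refine one_notMem_nonunits B ?_
      rw [e1]
      exact add_mem_nonunits B (mul_mem_nonunits B hB (intCast_mem B _))
        (mul_mem_nonunits B h (intCast_mem B _))
    have hyB : y t ∈ B := mem_of_pow_mem hp.out.ne_zero (by rw [hy, hJt]; exact JJ_mem h3 B t)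
    have hyB' : (y t)⁻¹ ∈ B := mem_of_pow_mem hp.out.ne_zero (by
      rw [inv_pow, hy, hJt]
      have e1 : (JJ χ t)⁻¹ = JJ χ (-t) * (v : Ω)⁻¹ := by
        rw [← JJ_mul h1 h2 hp2 ht]
        field_simp [hne ht, hne (neg_ne_zero.2 ht)]
      rw [e1]
      exact B.mul_mem _ _ (JJ_mem h3 B _) hvi)
    have e2 := sub_mem_nonunits_of_mem_inertia hσ hyB
    rw [haa, hc, one_mul] at e2
    have e3 : zp (aa σ t) - 1 = (zp (aa σ t) * y t - y t) * (y t)⁻¹ := by
      rw [sub_mul, mul_assoc, mul_inv_cancel₀ (hy0 t), mul_one]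
    have e4 : zp (aa σ t) - 1 ∈ B.nonunits := by
      rw [e3]
      exact mul_mem_nonunits B e2 hyB'
    have e5 := eq_of_sub_mem_nonunits hB hcop (zp_pow _) (one_pow p) hp.out.ne_zero e4
    have e6 : aa σ t = 0 := zp_inj (e5.trans zp_zero.symm)
    rw [e6, mul_zero]
  · obtain ⟨ϖ, hϖ⟩ := IsAlgClosed.exists_pow_nat_eq (v : Ω) hp.out.pos
    have hϖ0 : ϖ ≠ 0 := by
      intro h
      rw [h, zero_pow hp.out.ne_zero] at hϖ
      exact hv0 hϖ.symm
    have hwϖ : (p : ℚ) * (rval A v hA).w ϖ = 1 := by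
      rw [← RVal.w_pow hϖ0, hϖ]
      exact (rval A v hA).w_p
    have hpQ : (p : ℚ) ≠ 0 := Nat.cast_ne_zero.2 hp.out.ne_zero
    obtain ⟨τ, hτ, hne'⟩ : ∃ τ ∈ A.inertiaSubgroupIn ℚ, τ ϖ ≠ ϖ := by
      by_contra hcon
      push Not at hcon
      have hK : ϖ ∈ K0 A := by
        rw [K0, IntermediateField.mem_fixedField_iff]
        exact hcon
      obtain ⟨n, hn⟩ := (rval A v hA).w_int (⟨_, hK⟩ : K0 A)
        (fun h => hϖ0 (congrArg Subtype.val h))
      change (rval A v hA).w ϖ = n at hn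
      rw [hn] at hwϖ
      have e1 : (p : ℤ) * n = 1 := by exact_mod_cast hwϖ
      have e2 : (p : ℤ) ∣ 1 := ⟨n, e1.symm⟩
      have e3 : p ∣ 1 := by exact_mod_cast e2
      exact hp.out.one_lt.ne' (Nat.dvd_one.1 e3)
    obtain ⟨n, hn⟩ := exists_zp (p := p) (x := τ ϖ / ϖ) (by
      rw [div_pow, ← map_pow, hϖ, map_natCast, div_self hv0])
    have hn0 : n ≠ 0 := by
      rintro rfl
      rw [zp_zero, div_eq_one_iff_eq hϖ0] at hn
      exact hne' hn
    have hcop : Nat.Coprime v p := (Nat.coprime_primes hv.out hp.out).2 (Ne.symm hpv)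
    have hc : cyc p τ = 1 := cyc_inertia hcop hA hτ
    have haa' : ∀ t, t ≠ 0 → aa τ t = if 2 * t.val < p then n else 0 := by
      intro t ht
      have hJt : J t = JJ χ t := if_neg ht
      have e1 : (p : ℚ) * (rval A v hA).w (y t) = if 2 * t.val < p then 1 else 0 := by
        rw [← RVal.w_pow (hy0 t), hy, hJt]
        exact w_JJ hA hpv hp2 h1 h2 h3 h4 hdvd ht
      have e2 : zp (aa τ t) = τ (y t) / y t := by
        rw [haa, hc, one_mul, mul_div_cancel_right₀ _ (hy0 t)]
      have e3 : rs A (zp (aa τ t)) = th A τ (y t) := by rw [e2]; rfl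
      apply zp_inj
      refine root_ext hA hpv (zp_pow _) (zp_pow _) ?_
      rw [e3]
      split_ifs with h
      · rw [if_pos h, ← hwϖ] at e1
        rw [th_eq_of_w hA hτ (hy0 t) hϖ0 (mul_left_cancel₀ hpQ e1), th, hn]
      · rw [if_neg h] at e1
        have e4 := (mul_eq_zero.1 e1).resolve_left hpQ
        obtain ⟨e5, e6⟩ := (w_eq_zero_iff hA (hy0 t)).1 e4
        rw [th_unit hτ e5 e6, zp_zero, rs_one]
    refine ⟨τ, hτ, ?_⟩
    have e1 : ∀ t, cyc p τ * t * aa τ t = n * (if 2 * t.val < p then t else 0) := by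
      intro t
      by_cases ht : t = 0
      · rw [ht, mul_zero, zero_mul]
        split_ifs <;> rw [mul_zero]
      · rw [hc, one_mul, haa' t ht]
        split_ifs <;> ring
    change (∑ t, cyc p τ * t * aa τ t) ≠ 0
    rw [Finset.sum_congr rfl fun t _ => e1 t, ← Finset.mul_sum]
    exact mul_ne_zero hn0 (half_sum hp2)

end Fermat.Agent.S14x
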