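import Fermat.Agent.S14x.Tame
import Fermat.Agent.Sel.GWdef
import Fermat.Agent.CFT.Unr2

/-!
# Cup products of unramified and ramified local characters
-/

set_option autoImplicit false
set_option linter.unusedSectionVars false
set_option linter.style.haveILetI false

noncomputable section

namespace Fermat.Agent.S14x

open Fermat.Agent.Places Fermat.Agent.RedMod Fermat.Agent.FlatRam Fermat.Agent.Flat
  Fermat.Agent.GalRep Fermat.Agent.TW Fermat.Agent.Sel

local notation "Ω" => AlgebraicClosure ℚ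

variable {p : ℕ} [hp : Fact p.Prime]

/-- upper triangular unipotent matrices -/
def um (x y z : ZMod p) : Matrix (Fin 3) (Fin 3) (ZMod p) := !![1, x, z; 0, 1, y; 0, 0, 1]

theorem um_mul (x y z x' y' z' : ZMod p) :
    um x y z * um x' y' z' = um (x + x') (y + y') (z + z' + x * y') := by
  ext i j
  fin_cases i <;> fin_cases j <;>
    simp [um, Matrix.mul_apply, Fin.sum_univ_three] <;> ring

theorem um_one : um (p := p) 0 0 0 = 1 := by
  ext i j
  fin_cases i <;> fin_cases j <;> simp [um]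

theorem um_inj {x y z x' y' z' : ZMod p} (h : um x y z = um x' y' z') : z = z' := by
  have := congrFun (congrFun h 0) 2
  simpa [um] using this

theorem um_pow (y z : ZMod p) (n : ℕ) : um 0 y z ^ n = um 0 ((n : ZMod p) * y) ((n : ZMod p) * z) := by
  induction n with
  | zero => simp [um_one]
  | succ n ih =>
    rw [pow_succ, ih, um_mul]
    push_cast
    congr 1 <;> ring

variable {A : ValuationSubring (AlgebraicClosure ℚ)} {v : ℕ} [hv : Fact v.Prime]

/-- the cup product of an unramified and a ramified character does not vanish -/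
theorem heis_zero (hA : A.LiesOverPrime v) (hpv : p ≠ v) (hv1 : (v : ZMod p) = 1)
    {c c' f : A.decompositionSubgroup ℚ → ZMod p} (hc : ∀ σ τ, c (σ * τ) = c σ + c τ)
    (hc' : ∀ σ τ, c' (σ * τ) = c' σ + c' τ) (hcl : LC0 _ c) (hcl' : LC0 _ c') (hf : LC0 _ f)
    (h : ∀ σ τ, c σ * c' τ = f σ + f τ - f (σ * τ))
    (hI : ∀ σ : A.decompositionSubgroup ℚ, (σ : GQ) ∈ A.inertiaSubgroupIn ℚ → c σ = 0)
    {Φ τ : A.decompositionSubgroup ℚ} (hΦ : IsFr A v (Φ : GQ))
    (hτ : (τ : GQ) ∈ A.inertiaSubgroupIn ℚ) : c Φ * c' τ = 0 := by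
  have hc1 : c 1 = 0 := by
    have := hc 1 1
    rw [mul_one] at this
    simpa using this
  have hc1' : c' 1 = 0 := by
    have := hc' 1 1
    rw [mul_one] at this
    simpa using this
  have hf1 : f 1 = 0 := by
    have := h 1 1
    rw [hc1, zero_mul, mul_one] at this
    simpa using this.symm
  let F : A.decompositionSubgroup ℚ →* Matrix (Fin 3) (Fin 3) (ZMod p) :=
    { toFun := fun σ => um (c σ) (c' σ) (-f σ)
      map_one' := by rw [hc1, hc1', hf1, neg_zero, um_one]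
      map_mul' := fun σ τ => by
        rw [um_mul, hc, hc', h]
        congr 1
        ring }
  have hop : ∃ L : IntermediateField ℚ Ω, FiniteDimensional ℚ L ∧
      ∀ σ : A.decompositionSubgroup ℚ, (∀ x ∈ L, (σ : GQ) x = x) → F σ = 1 := by
    obtain ⟨L1, h1, h1'⟩ := hcl
    obtain ⟨L2, h2, h2'⟩ := hcl'
    obtain ⟨L3, h3, h3'⟩ := hf
    haveI := h1
    haveI := h2
    haveI := h3
    refine ⟨L1 ⊔ (L2 ⊔ L3), inferInstance, fun σ hσ => ?_⟩
    change um (c σ) (c' σ) (-f σ) = 1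
    rw [h1' σ fun x hx => hσ x ((le_sup_left : L1 ≤ L1 ⊔ (L2 ⊔ L3)) hx),
      h2' σ fun x hx => hσ x (((le_sup_left : L2 ≤ L2 ⊔ L3).trans le_sup_right :
        L2 ≤ L1 ⊔ (L2 ⊔ L3)) hx),
      h3' σ fun x hx => hσ x (((le_sup_right : L3 ≤ L2 ⊔ L3).trans le_sup_right :
        L3 ≤ L1 ⊔ (L2 ⊔ L3)) hx), neg_zero, um_one]
  have hFI : ∀ σ : A.decompositionSubgroup ℚ, (σ : GQ) ∈ A.inertiaSubgroupIn ℚ → ∀ n : ℕ,
      F σ ^ n = um 0 ((n : ZMod p) * c' σ) ((n : ZMod p) * (-f σ)) := by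
    intro σ hσ n
    change um (c σ) (c' σ) (-f σ) ^ n = _
    rw [hI σ hσ, um_pow]
  have hpp : ∀ σ : A.decompositionSubgroup ℚ, (σ : GQ) ∈ A.inertiaSubgroupIn ℚ →
      ∃ k : ℕ, F σ ^ p ^ k = 1 := by
    intro σ hσ
    refine ⟨1, ?_⟩
    rw [hFI σ hσ, pow_one, ZMod.natCast_self, zero_mul, zero_mul, um_one]
  have key := frob_tame (f := F) hp.out hpv hop hpp hA hΦ hτ
  have h1 : F (Φ * τ) = F τ * F Φ := by
    have h2 : F τ ^ v = F τ := by
      rw [hFI τ hτ, hv1, one_mul, one_mul]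
      change _ = um (c τ) (c' τ) (-f τ)
      rw [hI τ hτ]
    rw [h2] at key
    have h3 : F (Φ * τ) = F (Φ * τ * Φ⁻¹) * F Φ := by rw [← map_mul, inv_mul_cancel_right]
    rw [h3, key]
  rw [map_mul] at h1
  have h2 : um (c Φ) (c' Φ) (-f Φ) * um (c τ) (c' τ) (-f τ) =
      um (c τ) (c' τ) (-f τ) * um (c Φ) (c' Φ) (-f Φ) := h1
  rw [um_mul, um_mul] at h2
  have h3 := um_inj h2
  rw [hI τ hτ, zero_mul, add_zero] at h3
  linear_combination h3

/-- the cyclotomic character is trivial on the decomposition group if `v ≡ 1` -/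
theorem cyc_dec (hA : A.LiesOverPrime v) (hpv : p ≠ v) (hv1 : (v : ZMod p) = 1) {σ : GQ}
    (hσ : σ ∈ A.decompositionSubgroup ℚ) : cyc p σ = 1 := by
  let A' : CFT.Pl := ⟨A, v, hv.out, hA⟩
  have he : A'.ell = v := A'.ell_unique hv.out hA
  obtain ⟨E, hE, h1⟩ := exists_level_cyc p
  haveI := hE
  obtain ⟨Φ, hΦ⟩ := exists_isFrobeniusAt A hv.out hA
  have hcop : Nat.Coprime v p := (Nat.coprime_primes hv.out hp.out).2 (Ne.symm hpv)
  have hΦ' : CFT.IsFr A' Φ := CFT.isFr_of (by rw [he]; exact hΦ)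
  have hσ' : σ ∈ CFT.Dec A' := by
    rw [CFT.dec_eq]
    exact hσ
  obtain ⟨i, τ, hτ, h2⟩ := CFT.exists_frob_inertia (A := A') hΦ' hσ' E
  have h3 : cyc p ((Φ ^ i * τ)⁻¹ * σ) = 1 := h1 _ fun x hx => by
    change (Φ ^ i * τ)⁻¹ (σ x) = x
    rw [h2 x hx]
    exact (Φ ^ i * τ).symm_apply_apply x
  have h4 : cyc p σ = cyc p (Φ ^ i * τ) * cyc p ((Φ ^ i * τ)⁻¹ * σ) := by
    rw [← map_mul, mul_inv_cancel_left]
  rw [h4, h3, mul_one, map_mul, map_pow, cyc_frobenius hcop hA hΦ, hv1, one_pow, one_mul]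
  exact cyc_inertia hcop hA hτ

end Fermat.Agent.S14x
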