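import Fermat.Agent.S14x.Heis
import Mathlib.NumberTheory.JacobiSum.Basic

/-!
# Jacobi sums
-/

set_option autoImplicit false
set_option linter.unusedSectionVars false
set_option linter.style.haveILetI false

noncomputable section

namespace Fermat.Agent.S14x

open Fermat.Agent.Places Fermat.Agent.RedMod Fermat.Agent.FlatRam Fermat.Agent.Flat
  Fermat.Agent.GalRep Fermat.Agent.TW Fermat.Agent.Sel

local notation "Ω" => AlgebraicClosure ℚ

variable {p : ℕ} [hp : Fact p.Prime]

section zp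

/-- a primitive `p`-th root of unity -/
def zeta (p : ℕ) [Fact p.Prime] : Ω := (exists_zeta p).choose

theorem zeta_spec : IsPrimitiveRoot (zeta p) p := (exists_zeta p).choose_spec

/-- powers of the root of unity -/
def zp (c : ZMod p) : Ω := zeta p ^ c.val

theorem zp_pow (c : ZMod p) : zp c ^ p = 1 := by
  rw [zp, ← pow_mul, mul_comm, pow_mul, zeta_spec.pow_eq_one, one_pow]

theorem zp_ne_zero (c : ZMod p) : zp c ≠ 0 := by
  intro h
  have := zp_pow c
  rw [h, zero_pow hp.out.ne_zero] at this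
  exact zero_ne_one this

theorem zp_zero : zp (0 : ZMod p) = 1 := by rw [zp, ZMod.val_zero, pow_zero]

theorem zp_add (c d : ZMod p) : zp (c + d) = zp c * zp d := by
  rw [zp, zp, zp, ← pow_add, ZMod.val_add, ← pow_eq_pow_mod _ zeta_spec.pow_eq_one]

theorem zp_natCast_mul (n : ℕ) (c : ZMod p) : zp ((n : ZMod p) * c) = zp c ^ n := by
  induction n with
  | zero => rw [Nat.cast_zero, zero_mul, zp_zero, pow_zero]
  | succ n ih => rw [Nat.cast_succ, add_mul, one_mul, zp_add, ih, pow_succ]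

theorem zp_inj {c d : ZMod p} (h : zp c = zp d) : c = d := by
  have := zeta_spec.pow_inj (ZMod.val_lt c) (ZMod.val_lt d) h
  exact ZMod.val_injective p this

theorem exists_zp {x : Ω} (hx : x ^ p = 1) : ∃ c : ZMod p, x = zp c := by
  obtain ⟨i, hi, rfl⟩ := zeta_spec.eq_pow_of_pow_eq_one hx
  exact ⟨(i : ZMod p), by rw [zp, ZMod.val_natCast_of_lt hi]⟩

theorem apply_zp (σ : GQ) (c : ZMod p) : σ (zp c) = zp (cyc p σ * c) := by
  rw [apply_eq_pow_cyc p σ (zp_pow c), ← zp_natCast_mul, ZMod.natCast_zmod_val]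

end zp

variable {A : ValuationSubring (AlgebraicClosure ℚ)} {v : ℕ} [hv : Fact v.Prime]

theorem mem_of_root {B : ValuationSubring (AlgebraicClosure ℚ)} {x : Ω} {n : ℕ} (hn : n ≠ 0)
    (hx : x ^ n = 1) : x ∈ B := by
  rw [← B.valuation_le_one_iff]
  have h1 : B.valuation x ^ n = 1 := by rw [← map_pow, hx, map_one]
  by_contra h
  push Not at h
  exact absurd h1 (ne_of_gt (one_lt_pow₀ h hn))

theorem root_ext (hA : A.LiesOverPrime v) (hpv : p ≠ v) {x y : Ω} (hx : x ^ p = 1) (hy : y ^ p = 1)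
    (h : rs A x = rs A y) : x = y :=
  eq_of_sub_mem_nonunits hA ((Nat.coprime_primes hv.out hp.out).2 (Ne.symm hpv)) hx hy
    hp.out.ne_zero ((rs_eq_iff (mem_of_root hp.out.ne_zero hx) (mem_of_root hp.out.ne_zero hy)).1 h)

theorem exists_root_red (hA : A.LiesOverPrime v) (hpv : p ≠ v) {t : kk A} (ht : t ^ p = 1) :
    ∃ x : Ω, x ^ p = 1 ∧ rs A x = t := by
  have hz : zeta p ∈ A := mem_of_root hp.out.ne_zero zeta_spec.pow_eq_one
  have h1 : rs A (zeta p) ^ p = 1 := by rw [← rs_pow hz, zeta_spec.pow_eq_one, rs_one]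
  have h2 : rs A (zeta p) ≠ 1 := by
    intro h
    have h3 := root_ext hA hpv zeta_spec.pow_eq_one (one_pow p) (h.trans rs_one.symm)
    exact zeta_spec.ne_one hp.out.one_lt h3
  have h3 : IsPrimitiveRoot (rs A (zeta p)) p := IsPrimitiveRoot.iff_orderOf.2 (orderOf_eq_prime h1 h2)
  obtain ⟨i, -, rfl⟩ := h3.eq_pow_of_pow_eq_one ht
  refine ⟨zeta p ^ i, ?_, rs_pow hz i⟩
  rw [← pow_mul, mul_comm, pow_mul, zeta_spec.pow_eq_one, one_pow]

theorem charP_kk (hA : A.LiesOverPrime v) : CharP (kk A) v := RedMod.charP_residue hA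

/-- the prime field -/
def iot (hA : A.LiesOverPrime v) : ZMod v →+* kk A :=
  haveI := charP_kk hA
  ZMod.castHom (dvd_refl v) (kk A)

theorem exists_char (hA : A.LiesOverPrime v) (hpv : p ≠ v) (hv1 : (v : ZMod p) = 1) :
    ∃ χ : MulChar (ZMod v) Ω, χ ^ p = 1 ∧ (∀ n : ℕ, χ ^ n = 1 → p ∣ n) ∧
      (∀ x, x ≠ 0 → χ x ^ p = 1) ∧
      (∀ x : ZMod v, rs A (χ x) = iot hA x ^ ((v - 1) / p)) ∧ p ∣ v - 1 := by
  have hdvd : p ∣ v - 1 := by
    have h1 : ((v - 1 : ℕ) : ZMod p) = 0 := by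
      rw [Nat.cast_sub hv.out.one_le, hv1, Nat.cast_one, sub_self]
    exact (ZMod.natCast_eq_zero_iff _ _).1 h1
  obtain ⟨m, hm⟩ := hdvd
  have hm0 : m ≠ 0 := by
    rintro rfl
    have := hv.out.one_lt
    omega
  have hdiv : (v - 1) / p = m := by rw [hm, Nat.mul_div_cancel_left _ hp.out.pos]
  rw [hdiv]
  have hpow : ∀ u : (ZMod v)ˣ, (iot hA (u : ZMod v) ^ m) ^ p = 1 := by
    intro u
    rw [← pow_mul, mul_comm, ← hm, ← map_pow, ZMod.pow_card_sub_one_eq_one u.ne_zero, map_one]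
  choose x hx1 hx2 using fun u => exists_root_red hA hpv (hpow u)
  have hx0 : ∀ u, x u ≠ 0 := by
    intro u h
    have := hx1 u
    rw [h, zero_pow hp.out.ne_zero] at this
    exact zero_ne_one this
  have hxA : ∀ u, x u ∈ A := fun u => mem_of_root hp.out.ne_zero (hx1 u)
  let f : (ZMod v)ˣ →* Ωˣ :=
    { toFun := fun u => Units.mk0 (x u) (hx0 u)
      map_one' := by
        apply Units.ext
        change x 1 = 1
        refine root_ext hA hpv (hx1 1) (one_pow p) ?_
        rw [hx2, Units.val_one, map_one, one_pow, rs_one]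
      map_mul' := fun u w => by
        apply Units.ext
        change x (u * w) = x u * x w
        refine root_ext hA hpv (hx1 _) (by rw [mul_pow, hx1, hx1, one_mul]) ?_
        rw [hx2, rs_mul (hxA u) (hxA w), hx2, hx2, Units.val_mul, map_mul, mul_pow] }
  have hfu : ∀ u : (ZMod v)ˣ, MulChar.ofUnitHom f (u : ZMod v) = x u := fun u =>
    MulChar.ofUnitHom_coe f u
  refine ⟨MulChar.ofUnitHom f, ?_, ?_, ?_, ?_, ⟨m, hm⟩⟩
  · ext u
    rw [MulChar.pow_apply_coe, hfu, hx1, MulChar.one_apply_coe]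
  · intro n hn
    obtain ⟨g, hg⟩ := IsCyclic.exists_generator (α := (ZMod v)ˣ)
    have h1 : x g ^ n = 1 := by
      rw [← hfu, ← MulChar.pow_apply_coe, hn, MulChar.one_apply_coe]
    have h2 : iot hA ((g : ZMod v) ^ (m * n)) = 1 := by
      rw [map_pow, pow_mul, ← hx2, ← rs_pow (hxA g), h1, rs_one]
    have h3 : g ^ (m * n) = 1 := by
      apply Units.ext
      rw [Units.val_pow_eq_pow_val, Units.val_one]
      exact (iot hA).injective (h2.trans (map_one _).symm)
    have h4 : v - 1 ∣ m * n := by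
      rw [← orderOf_dvd_iff_pow_eq_one, orderOf_eq_card_of_forall_mem_zpowers hg,
        Nat.card_eq_fintype_card, ZMod.card_units] at h3
      exact h3
    rw [hm, mul_comm p m] at h4
    exact Nat.dvd_of_mul_dvd_mul_left (Nat.pos_of_ne_zero hm0) h4
  · intro y hy
    have := hfu (Units.mk0 y hy)
    rw [Units.val_mk0] at this
    rw [this, hx1]
  · intro y
    rcases eq_or_ne y 0 with rfl | hy
    · rw [MulChar.map_zero, map_zero, zero_pow hm0, rs_zero]
    · have := hfu (Units.mk0 y hy)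
      rw [Units.val_mk0] at this
      rw [this, hx2, Units.val_mk0]

end Fermat.Agent.S14x
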