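import Fermat.Agent.S14x.Jac

/-!
# Jacobi sums II
-/

set_option autoImplicit false
set_option linter.unusedSectionVars false
set_option linter.style.haveILetI false

noncomputable section

namespace Fermat.Agent.S14x

open Fermat.Agent.Places Fermat.Agent.RedMod Fermat.Agent.FlatRam Fermat.Agent.Flat
  Fermat.Agent.GalRep Fermat.Agent.TW Fermat.Agent.Sel

local notation "Ω" => AlgebraicClosure ℚ

variable {p : ℕ} [hp : Fact p.Prime] {A : ValuationSubring (AlgebraicClosure ℚ)} {v : ℕ}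
  [hv : Fact v.Prime]

theorem pow_char_congr {χ : MulChar (ZMod v) Ω} (h1 : χ ^ p = 1) {m n : ℕ}
    (h : (m : ZMod p) = n) : χ ^ m = χ ^ n := by
  rw [pow_eq_pow_mod m h1, pow_eq_pow_mod n h1]
  congr 1
  exact (ZMod.natCast_eq_natCast_iff m n p).1 h

/-- Jacobi sums -/
def JJ (χ : MulChar (ZMod v) Ω) (t : ZMod p) : Ω := jacobiSum (χ ^ t.val) (χ ^ t.val)

section

variable {χ : MulChar (ZMod v) Ω} (h1 : χ ^ p = 1) (h2 : ∀ n : ℕ, χ ^ n = 1 → p ∣ n)
  (h3 : ∀ x, x ≠ 0 → χ x ^ p = 1)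

include h3 in
theorem chi_pow_root (n : ℕ) {x : ZMod v} (hx : x ≠ 0) : (χ ^ n) x ^ p = 1 := by
  have : (χ ^ n) x = χ x ^ n := by
    have := MulChar.pow_apply_coe χ n (Units.mk0 x hx)
    rwa [Units.val_mk0] at this
  rw [this, ← pow_mul, mul_comm, pow_mul, h3 x hx, one_pow]

include h3 in
theorem chi_mem (B : ValuationSubring (AlgebraicClosure ℚ)) (n : ℕ) (x : ZMod v) : (χ ^ n) x ∈ B := by
  rcases eq_or_ne x 0 with rfl | hx
  · rw [MulChar.map_zero]; exact B.zero_mem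
  · exact mem_of_root hp.out.ne_zero (chi_pow_root h3 n hx)

include h3 in
theorem JJ_mem (B : ValuationSubring (AlgebraicClosure ℚ)) (t : ZMod p) : JJ χ t ∈ B := by
  rw [JJ, jacobiSum]
  exact B.toSubring.sum_mem fun x _ => B.mul_mem _ _ (chi_mem h3 B _ _) (chi_mem h3 B _ _)

include h1 h2 in
theorem JJ_mul (hp2 : p ≠ 2) {t : ZMod p} (ht : t ≠ 0) : JJ χ t * JJ χ (-t) = v := by
  have e1 : χ ^ (-t).val = (χ ^ t.val)⁻¹ := by
    apply eq_inv_of_mul_eq_one_left
    rw [← pow_add]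
    rw [show (1 : MulChar (ZMod v) Ω) = χ ^ 0 from (pow_zero χ).symm]
    apply pow_char_congr h1
    push_cast
    rw [ZMod.natCast_zmod_val, ZMod.natCast_zmod_val, neg_add_cancel]
  have e2 : χ ^ t.val ≠ 1 := by
    intro h
    have := h2 _ h
    rw [← ZMod.natCast_eq_zero_iff, ZMod.natCast_zmod_val] at this
    exact ht this
  have e3 : χ ^ t.val * χ ^ t.val ≠ 1 := by
    intro h
    rw [← pow_add] at h
    have := h2 _ h
    rw [← ZMod.natCast_eq_zero_iff, Nat.cast_add, ZMod.natCast_zmod_val, ← two_mul] at this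
    rcases mul_eq_zero.1 this with h4 | h4
    · have : p ∣ 2 := by
        rw [← ZMod.natCast_eq_zero_iff]; exact_mod_cast h4
      exact hp2 ((Nat.prime_dvd_prime_iff_eq hp.out Nat.prime_two).1 this)
    · exact ht h4
  rw [JJ, JJ, e1, jacobiSum_mul_jacobiSum_inv ?_ e2 e2 e3, ZMod.card]
  rw [ringChar.eq_zero, ZMod.ringChar_zmod_n]
  exact hv.out.ne_zero.symm

include h1 h3 in
theorem apply_JJ (σ : GQ) (t : ZMod p) : σ (JJ χ t) = JJ χ (cyc p σ * t) := by
  have e : χ ^ (cyc p σ * t).val = (χ ^ t.val).ringHomComp (σ : Ω →+* Ω) := by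
    apply MulChar.ext
    intro u
    rw [MulChar.ringHomComp_apply]
    change _ = σ ((χ ^ t.val) u)
    rw [apply_eq_pow_cyc p σ (chi_pow_root h3 t.val u.ne_zero), ← MulChar.pow_apply_coe, ← pow_mul]
    congr 1
    apply pow_char_congr h1
    push_cast
    rw [ZMod.natCast_zmod_val, ZMod.natCast_zmod_val, ZMod.natCast_zmod_val, mul_comm]
  rw [JJ, JJ, e, jacobiSum_ringHomComp]
  rfl

end

/-- vanishing of power sums -/
theorem sum_eq_zero {a : ℕ} (ha : 2 * a < v - 1) : ∑ x : ZMod v, x ^ a * (1 - x) ^ a = 0 := by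
  have e : ∀ x : ZMod v, x ^ a * (1 - x) ^ a =
      ∑ j ∈ Finset.range (a + 1), ((-1) ^ j * (a.choose j : ZMod v)) * x ^ (a + j) := by
    intro x
    rw [sub_eq_neg_add, add_pow, Finset.mul_sum]
    refine Finset.sum_congr rfl fun j _ => ?_
    rw [one_pow, mul_one, neg_pow, pow_add]
    ring
  simp_rw [e]
  rw [Finset.sum_comm]
  refine Finset.sum_eq_zero fun j hj => ?_
  rw [← Finset.mul_sum, FiniteField.sum_pow_lt_card_sub_one (ZMod v) (a + j), mul_zero]
  rw [ZMod.card]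
  have := Finset.mem_range.1 hj
  omega

theorem JJ_nonunit (hA : A.LiesOverPrime v) {χ : MulChar (ZMod v) Ω}
    (h3 : ∀ x, x ≠ 0 → χ x ^ p = 1)
    (h4 : ∀ x : ZMod v, rs A (χ x) = iot hA x ^ ((v - 1) / p)) (hdvd : p ∣ v - 1)
    {t : ZMod p} (ht : t ≠ 0) (ht2 : 2 * t.val < p) : JJ χ t ∈ A.nonunits := by
  obtain ⟨m, hm⟩ := hdvd
  have hm0 : 0 < m := by
    rcases Nat.eq_zero_or_pos m with rfl | h
    · have := hv.out.one_lt
      omega
    · exact h
  have hdiv : (v - 1) / p = m := by rw [hm, Nat.mul_div_cancel_left _ hp.out.pos]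
  rw [hdiv] at h4
  rw [← rs_eq_zero_iff (JJ_mem h3 A t), JJ, jacobiSum]
  have hmem := fun x : ZMod v => chi_mem h3 A t.val x
  have hχ : ∀ x : ZMod v, rs A ((χ ^ t.val) x) = iot hA (x ^ (m * t.val)) := by
    intro x
    rcases eq_or_ne x 0 with rfl | hx
    · rw [MulChar.map_zero, rs_zero, zero_pow, map_zero]
      have : t.val ≠ 0 := (ZMod.val_ne_zero t).2 ht
      positivity
    · have e1 : (χ ^ t.val) x = χ x ^ t.val := by
        have := MulChar.pow_apply_coe χ t.val (Units.mk0 x hx)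
        rwa [Units.val_mk0] at this
      rw [e1, rs_pow (mem_of_root hp.out.ne_zero (h3 x hx)), h4, map_pow, pow_mul]
  rw [rs_sum _ _ fun x _ => A.mul_mem _ _ (hmem _) (hmem _)]
  have e2 : ∀ x ∈ (Finset.univ : Finset (ZMod v)), rs A ((χ ^ t.val) x * (χ ^ t.val) (1 - x)) =
      iot hA (x ^ (m * t.val) * (1 - x) ^ (m * t.val)) := by
    intro x _
    rw [rs_mul (hmem _) (hmem _), hχ, hχ, map_mul]
  rw [Finset.sum_congr rfl e2, ← map_sum, sum_eq_zero, map_zero]
  rw [hm]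
  calc 2 * (m * t.val) = m * (2 * t.val) := by ring
    _ < m * p := (Nat.mul_lt_mul_left hm0).2 ht2
    _ = p * m := mul_comm _ _

/-- valuations of the Jacobi sums -/
theorem w_JJ (hA : A.LiesOverPrime v) (hpv : p ≠ v) (hp2 : p ≠ 2) {χ : MulChar (ZMod v) Ω}
    (h1 : χ ^ p = 1) (h2 : ∀ n : ℕ, χ ^ n = 1 → p ∣ n)
    (h3 : ∀ x, x ≠ 0 → χ x ^ p = 1)
    (h4 : ∀ x : ZMod v, rs A (χ x) = iot hA x ^ ((v - 1) / p)) (hdvd : p ∣ v - 1)
    {t : ZMod p} (ht : t ≠ 0) :
    (rval A v hA).w (JJ χ t) = if 2 * t.val < p then 1 else 0 := by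
  have hne : ∀ {s : ZMod p}, s ≠ 0 → JJ χ s ≠ 0 := by
    intro s hs h
    have := JJ_mul h1 h2 hp2 hs
    rw [h, zero_mul] at this
    exact Nat.cast_ne_zero.2 hv.out.ne_zero this.symm
  have hint : ∀ {s : ZMod p}, s ≠ 0 → ∃ n : ℤ, (rval A v hA).w (JJ χ s) = n := by
    intro s hs
    have hK : JJ χ s ∈ K0 A := by
      rw [K0, IntermediateField.mem_fixedField_iff]
      intro σ hσ
      have hc : cyc p σ = 1 := cyc_inertia ((Nat.coprime_primes hv.out hp.out).2 (Ne.symm hpv)) hA hσ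
      have := apply_JJ h1 h3 σ s
      rw [hc, one_mul] at this
      exact this
    exact (rval A v hA).w_int (⟨_, hK⟩ : K0 A) (fun h => hne hs (congrArg Subtype.val h))
  have hnn : ∀ {s : ZMod p}, s ≠ 0 → 0 ≤ (rval A v hA).w (JJ χ s) := fun {s} hs =>
    ((rval_ge_zero_iff hA).2 (JJ_mem h3 A s)).le (hne hs)
  have hsum : ∀ {s : ZMod p}, s ≠ 0 →
      (rval A v hA).w (JJ χ s) + (rval A v hA).w (JJ χ (-s)) = 1 := by
    intro s hs
    rw [← RVal.w_mul (hne hs) (hne (neg_ne_zero.2 hs)), JJ_mul h1 h2 hp2 hs]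
    exact (rval A v hA).w_p
  have key : ∀ {s : ZMod p}, s ≠ 0 → 2 * s.val < p → (rval A v hA).w (JJ χ s) = 1 ∧
      (rval A v hA).w (JJ χ (-s)) = 0 := by
    intro s hs hs2
    have e1 : 0 < (rval A v hA).w (JJ χ s) :=
      ((rval_gt_zero_iff hA).2 (JJ_nonunit hA h3 h4 hdvd hs hs2)).lt (hne hs)
    have e2 := hsum hs
    have e3 := hnn (neg_ne_zero.2 hs)
    obtain ⟨n, hn⟩ := hint hs
    rw [hn] at e1 e2
    have e4 : (0 : ℤ) < n := by exact_mod_cast e1
    have e5 : (1 : ℚ) ≤ n := by exact_mod_cast e4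
    constructor
    · rw [hn]; linarith
    · linarith
  split_ifs with h
  · exact (key ht h).1
  · have h5 : 2 * (-t).val < p := by
      haveI : NeZero t := ⟨ht⟩
      rw [ZMod.val_neg_of_ne_zero]
      have h6 := ZMod.val_lt t
      have h7 : 2 * t.val ≠ p := by
        intro h8
        have h9 : 2 ∣ p := ⟨_, h8.symm⟩
        exact hp2 ((Nat.prime_dvd_prime_iff_eq Nat.prime_two hp.out).1 h9).symm
      omega
    have := (key (neg_ne_zero.2 ht) h5).2
    rwa [neg_neg] at this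

end Fermat.Agent.S14x
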