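import Fermat.Agent.TW.Tame

/-!
# Tame inertia, for homomorphisms defined on the decomposition group only
-/

set_option autoImplicit false
set_option linter.unusedSectionVars false
set_option linter.style.haveILetI false

noncomputable section

namespace Fermat.Agent.S14x

open Fermat.Agent.Places Fermat.Agent.RedMod Fermat.Agent.FlatRam Fermat.Agent.Flat
  Fermat.Agent.GalRep Fermat.Agent.TW

local notation "Ω" => AlgebraicClosure ℚ

variable {A : ValuationSubring (AlgebraicClosure ℚ)} {v : ℕ} [hv : Fact v.Prime]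

variable {M : Type*} [Monoid M] (f : A.decompositionSubgroup ℚ →* M)

omit hv in
theorem mem_dec {A : ValuationSubring (AlgebraicClosure ℚ)} {σ : GQ}
    (h : σ ∈ A.inertiaSubgroupIn ℚ) : σ ∈ A.decompositionSubgroup ℚ := by
  obtain ⟨τ, _, rfl⟩ := h
  exact τ.2

/-- the kernel in inertia -/
def kerD : Subgroup GQ :=
  A.inertiaSubgroupIn ℚ ⊓ f.toHomUnits.ker.map (A.decompositionSubgroup ℚ).subtype

theorem mem_kerD {σ : GQ} : σ ∈ kerD f ↔ σ ∈ A.inertiaSubgroupIn ℚ ∧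
    ∃ h : σ ∈ A.decompositionSubgroup ℚ, f ⟨σ, h⟩ = 1 := by
  rw [kerD, Subgroup.mem_inf, Subgroup.mem_map]
  refine and_congr_right fun _ => ⟨?_, ?_⟩
  · rintro ⟨τ, hτ, rfl⟩
    refine ⟨τ.2, ?_⟩
    rw [MonoidHom.mem_ker, Units.ext_iff] at hτ
    exact hτ
  · rintro ⟨h, h1⟩
    refine ⟨⟨σ, h⟩, ?_, rfl⟩
    rw [MonoidHom.mem_ker, Units.ext_iff]
    exact h1

variable {f} {p : ℕ} (hp : p.Prime) (hpv : p ≠ v)
  (hop : ∃ L : IntermediateField ℚ Ω, FiniteDimensional ℚ L ∧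
    ∀ σ : A.decompositionSubgroup ℚ, (∀ x ∈ L, (σ : GQ) x = x) → f σ = 1)
  (hpp : ∀ σ : A.decompositionSubgroup ℚ, (σ : GQ) ∈ A.inertiaSubgroupIn ℚ → ∃ k : ℕ, f σ ^ p ^ k = 1)

include hop in
theorem isClosed_kerD : IsClosed ((kerD f : Subgroup GQ) : Set GQ) := by
  obtain ⟨L, hL, hf⟩ := hop
  let L' : IntermediateField ℚ Ω := IntermediateField.normalClosure ℚ L Ω
  haveI : FiniteDimensional ℚ L' := inferInstance
  have hn : (L'.fixingSubgroup).Normal := by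
    haveI : Normal ℚ L' := normalClosure.normal ℚ L Ω
    infer_instance
  have hLL : L ≤ L' := IntermediateField.le_normalClosure L
  have hle : ∀ σ ∈ A.inertiaSubgroupIn ℚ, σ ∈ L'.fixingSubgroup → σ ∈ kerD f := by
    intro σ hσ hσ'
    have hD : σ ∈ A.decompositionSubgroup ℚ := mem_dec hσ
    rw [mem_kerD]
    refine ⟨hσ, hD, hf ⟨σ, hD⟩ fun x hx => ?_⟩
    rw [IntermediateField.mem_fixingSubgroup_iff] at hσ'
    exact hσ' x (hLL hx)
  have h1 : ((kerD f : Subgroup GQ) : Set GQ) =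
      (A.inertiaSubgroupIn ℚ : Set GQ) ∩ ((kerD f ⊔ L'.fixingSubgroup : Subgroup GQ) : Set GQ) := by
    ext σ
    constructor
    · intro h
      exact ⟨((mem_kerD f).1 h).1, Subgroup.mem_sup_left h⟩
    · rintro ⟨h2, h3⟩
      obtain ⟨y, hy, z, hz, rfl⟩ := Subgroup.mem_sup_of_normal_right.1 h3
      have hz' : z ∈ A.inertiaSubgroupIn ℚ := by
        have := mul_mem (inv_mem ((mem_kerD f).1 hy).1) h2
        rwa [inv_mul_cancel_left] at this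
      exact mul_mem hy (hle z hz' hz)
  rw [h1]
  refine (isClosed_inertia A).inter ?_
  apply Subgroup.isClosed_of_isOpen
  exact Subgroup.isOpen_mono (H₁ := L'.fixingSubgroup) le_sup_right L'.fixingSubgroup_isOpen

include hop in
theorem eq_one_of_fix {σ : A.decompositionSubgroup ℚ} (hσ : (σ : GQ) ∈ A.inertiaSubgroupIn ℚ)
    (h : ∀ x : Ω, (∀ τ ∈ kerD f, τ x = x) → (σ : GQ) x = x) : f σ = 1 := by
  have h2 := InfiniteGalois.fixingSubgroup_fixedField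
    (⟨kerD f, isClosed_kerD hop⟩ : ClosedSubgroup GQ)
  have h3 : (IntermediateField.fixedField (kerD f)).fixingSubgroup = kerD f := h2
  have h4 : (σ : GQ) ∈ kerD f := by
    rw [← h3, IntermediateField.mem_fixingSubgroup_iff]
    intro x hx
    exact h x fun τ hτ => (IntermediateField.mem_fixedField_iff _ _).1 hx τ hτ
  obtain ⟨-, h5, h6⟩ := (mem_kerD f).1 h4
  exact h6

theorem conj_kerD {σ τ : GQ} (hσ : σ ∈ A.inertiaSubgroupIn ℚ) (hτ : τ ∈ kerD f) :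
    σ⁻¹ * τ * σ ∈ kerD f := by
  obtain ⟨h1, h2, h3⟩ := (mem_kerD f).1 hτ
  have hD : σ ∈ A.decompositionSubgroup ℚ := mem_dec hσ
  rw [mem_kerD]
  refine ⟨mul_mem (mul_mem (inv_mem hσ) h1) hσ, mul_mem (mul_mem (inv_mem hD) h2) hD, ?_⟩
  have e : (⟨σ⁻¹ * τ * σ, mul_mem (mul_mem (inv_mem hD) h2) hD⟩ : A.decompositionSubgroup ℚ) =
    (⟨σ, hD⟩ : A.decompositionSubgroup ℚ)⁻¹ * ⟨τ, h2⟩ * ⟨σ, hD⟩ := rfl
  rw [e, map_mul, map_mul, h3, mul_one, ← map_mul, inv_mul_cancel, map_one]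

theorem fix_of_conj {σ : GQ} (hσ : σ ∈ A.inertiaSubgroupIn ℚ) {x : Ω}
    (hx : ∀ τ ∈ kerD f, τ x = x) (τ : GQ) (hτ : τ ∈ kerD f) : τ (σ x) = σ x := by
  have h1 := hx _ (conj_kerD hσ hτ)
  have h2 : σ ((σ⁻¹ * τ * σ) x) = τ (σ x) := by
    change (σ * (σ⁻¹ * τ * σ)) x = (τ * σ) x
    congr 1
    group
  rw [← h2, h1]

include hp hpv hop hpp in
/-- elements with trivial tame characters are in the kernel -/
theorem eq_one_of_th (hA : A.LiesOverPrime v) {σ : A.decompositionSubgroup ℚ}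
    (hσ : (σ : GQ) ∈ A.inertiaSubgroupIn ℚ)
    (h : ∀ x : Ω, x ≠ 0 → (∀ τ ∈ kerD f, τ x = x) → th A (σ : GQ) x = 1) : f σ = 1 := by
  obtain ⟨k, hk⟩ := hpp σ hσ
  refine eq_one_of_fix hop hσ fun x hx => ?_
  by_contra hne
  have hy0 : (σ : GQ) x - x ≠ 0 := sub_ne_zero.2 hne
  have hy : ∀ τ ∈ kerD f, τ ((σ : GQ) x - x) = (σ : GQ) x - x := by
    intro τ hτ
    rw [map_sub, fix_of_conj hσ hx τ hτ, hx τ hτ]
  have hth := h _ hy0 hy
  have h1 := (sum_ne_zero hA (Finset.range (p ^ k)) (fun i => (σ : GQ) ^ i) hy0 (fun i _ =>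
    ⟨pow_mem hσ i, by rw [th_pow_left hA hy0 hσ, hth, one_pow]⟩) (by
      rw [Finset.card_range]
      intro hd
      exact hpv ((Nat.prime_dvd_prime_iff_eq hv.out hp).1 (hv.out.dvd_of_dvd_pow hd)).symm)).1
  apply h1
  have h2 : ∀ n : ℕ, ∑ i ∈ Finset.range n, ((σ : GQ) ^ i) ((σ : GQ) x - x) = ((σ : GQ) ^ n) x - x := by
    intro n
    induction n with
    | zero => simp
    | succ n ih =>
      rw [Finset.sum_range_succ, ih, map_sub, pow_succ]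
      change ((σ : GQ) ^ n) x - x + (((σ : GQ) ^ n) ((σ : GQ) x) - ((σ : GQ) ^ n) x) =
        ((σ : GQ) ^ n) ((σ : GQ) x) - x
      ring
  rw [h2, hx ((σ : GQ) ^ p ^ k) ((mem_kerD f).2 ⟨pow_mem hσ _, pow_mem σ.2 _, by
    have e : (⟨(σ : GQ) ^ p ^ k, pow_mem σ.2 _⟩ : A.decompositionSubgroup ℚ) = σ ^ p ^ k := rfl
    rw [e, map_pow, hk]⟩), sub_self]

include hp hpv hop hpp in
/-- the action of Frobenius on tame inertia -/
theorem frob_tame (hA : A.LiesOverPrime v) {Φ : A.decompositionSubgroup ℚ} (hΦ : IsFr A v (Φ : GQ))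
    {σ : A.decompositionSubgroup ℚ}
    (hσ : (σ : GQ) ∈ A.inertiaSubgroupIn ℚ) : f (Φ * σ * Φ⁻¹) = f σ ^ v := by
  have hc : ((Φ * σ * Φ⁻¹ : A.decompositionSubgroup ℚ) : GQ) ∈ A.inertiaSubgroupIn ℚ :=
    conj_mem_inertia hΦ.1 hσ
  have hmem : ((Φ * σ * Φ⁻¹ * (σ ^ v)⁻¹ : A.decompositionSubgroup ℚ) : GQ) ∈ A.inertiaSubgroupIn ℚ :=
    mul_mem hc (inv_mem (pow_mem hσ v))
  have h1 : f (Φ * σ * Φ⁻¹ * (σ ^ v)⁻¹) = 1 := by
    refine eq_one_of_th hp hpv hop hpp hA hmem fun x hx0 hx => ?_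
    have h2 : th A (((Φ : GQ) * σ * (Φ : GQ)⁻¹ * ((σ : GQ) ^ v)⁻¹) * (σ : GQ) ^ v) x = _ :=
      th_comp hA hmem (pres_of_mem (pow_mem hσ v)) hx0
    rw [inv_mul_cancel_right, th_fr hA hΦ hσ hx0, ← th_pow_left hA hx0 hσ] at h2
    have h3 : th A ((σ : GQ) ^ v) x ≠ 0 := th_ne_zero hA hx0 (pow_mem hσ v)
    exact (mul_eq_right₀ h3).1 h2.symm
  have h3 : f (Φ * σ * Φ⁻¹) = f (Φ * σ * Φ⁻¹ * (σ ^ v)⁻¹) * f (σ ^ v) := by
    rw [← map_mul, inv_mul_cancel_right]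
  rw [h3, h1, one_mul, map_pow]

end Fermat.Agent.S14x
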